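import Fermat.Agent.DavenportHasse.Recursion
import Mathlib.FieldTheory.Finite.Extension
import Mathlib.FieldTheory.Finite.GaloisField
import Mathlib.FieldTheory.Perfect
import Mathlib.RingTheory.Norm.Transitivity
import Mathlib.RingTheory.Trace.Basic

/-!
# The lifting relation of Davenport and Hasse

In an extension `E / F` of degree `n` of finite fields the elements with minimal polynomial `π`, of degree `d`
dividing `n`, are `d` in number, and at each of them `χ (N x) ψ (Tr x) = λ(π) ^ (n / d)`. So the Gauss sum of the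
lifted characters is `-(-g(χ, ψ)) ^ n`.
-/

set_option autoImplicit false
set_option linter.unusedSectionVars false

noncomputable section

open Finset Polynomial
open scoped Classical IntermediateField

namespace FA.DavenportHasse

variable {F : Type*} [Field F] [Fintype F] {R : Type*} [CommRing R] (E : Type*) [Field E] [Fintype E] [Algebra F E]

/-- `χ ∘ N`. -/
def normChar (χ : MulChar F R) : MulChar E R where
  toMonoidHom := χ.toMonoidHom.comp (Algebra.norm F)
  map_nonunit' x hx := by
    have hx0 : x = 0 := by simpa [isUnit_iff_ne_zero] using hx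
    show χ (Algebra.norm F x) = 0
    rw [hx0, Algebra.norm_zero, MulChar.map_zero]

theorem normChar_apply (χ : MulChar F R) (x : E) : normChar E χ x = χ (Algebra.norm F x) := rfl

/-- `ψ ∘ Tr`. -/
def traceAddChar (ψ : AddChar F R) : AddChar E R := ψ.compAddMonoidHom (Algebra.trace F E).toAddMonoidHom

theorem traceAddChar_apply (ψ : AddChar F R) (x : E) : traceAddChar E ψ x = ψ (Algebra.trace F E x) := rfl

variable {E} (χ : MulChar F R) (ψ : AddChar F R)

theorem natDegree_minpoly_dvd (x : E) : (minpoly F x).natDegree ∣ Module.finrank F E := by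
  rw [← IntermediateField.adjoin.finrank (IsIntegral.of_finite F x)]
  exact ⟨_, (Module.finrank_mul_finrank F F⟮x⟯ E).symm⟩

theorem normChar_mul_traceAddChar (x : E) :
    normChar E χ x * traceAddChar E ψ x =
      polySymbol χ ψ (minpoly F x) ^ (Module.finrank F E / (minpoly F x).natDegree) := by
  have hx := IsIntegral.of_finite F x
  have hd : 0 < (minpoly F x).natDegree := minpoly.natDegree_pos hx
  have hk : Module.finrank F⟮x⟯ E = Module.finrank F E / (minpoly F x).natDegree := by
    rw [← Module.finrank_mul_finrank F F⟮x⟯ E, IntermediateField.adjoin.finrank hx, Nat.mul_div_cancel_left _ hd]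
  have hN : Algebra.norm F (IntermediateField.AdjoinSimple.gen F x) =
      (-1) ^ (minpoly F x).natDegree * (minpoly F x).coeff 0 := by
    have h := Algebra.PowerBasis.norm_gen_eq_coeff_zero_minpoly (IntermediateField.adjoin.powerBasis hx)
    rwa [IntermediateField.adjoin.powerBasis_gen, IntermediateField.minpoly_gen] at h
  rw [normChar_apply, traceAddChar_apply, Algebra.norm_eq_norm_adjoin, trace_eq_finrank_mul_minpoly_nextCoeff, hk,
    map_pow, ← nsmul_eq_mul, AddChar.map_nsmul_eq_pow, hN, ← mul_pow]
  rfl

theorem irreducible_splits {π : F[X]} (hπ : Irreducible π) (hm : π.Monic) (hd : π.natDegree ∣ Module.finrank F E) :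
    (π.map (algebraMap F E)).Splits := by
  have := Fact.mk hπ
  obtain ⟨f⟩ : Nonempty (AdjoinRoot π →ₐ[F] E) := FiniteField.nonempty_algHom_of_finrank_dvd (by
    rwa [show Module.finrank F (AdjoinRoot π) = π.natDegree from finrank_quotient_span_eq_natDegree])
  have h : π = minpoly F (f (AdjoinRoot.root π)) := minpoly.eq_of_irreducible_of_monic hπ (by
    rw [aeval_algHom_apply, AdjoinRoot.aeval_eq, AdjoinRoot.mk_self, map_zero]) hm
  rw [h]
  exact Normal.splits inferInstance _

theorem card_fibre {π : F[X]} (hπ : Irreducible π) (hm : π.Monic) (hd : π.natDegree ∣ Module.finrank F E) :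
    (Finset.univ.filter fun x : E => minpoly F x = π).card = π.natDegree := by
  rw [← Polynomial.card_rootSet_eq_natDegree (K := E) (PerfectField.separable_of_irreducible hπ)
    (irreducible_splits hπ hm hd), ← Fintype.card_subtype]
  refine Fintype.card_congr (Equiv.subtypeEquivRight fun x => ?_)
  rw [Polynomial.mem_rootSet_of_ne hπ.ne_zero]
  exact ⟨fun h => h ▸ minpoly.aeval F x, fun h => (minpoly.eq_of_irreducible_of_monic hπ h hm).symm⟩

/-- The lifted Gauss sum is the weighted sum. -/
theorem gaussSum_normChar_eq_powerSum :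
    gaussSum (normChar E χ) (traceAddChar E ψ) = powerSum χ ψ (Module.finrank F E) := by
  set n := Module.finrank F E
  have hn : n ≠ 0 := Module.finrank_pos.ne'
  have hmem : ∀ x : E, minpoly F x ∈ n.divisors.biUnion (irrOfDeg F) := fun x => by
    have hx := IsIntegral.of_finite F x
    exact Finset.mem_biUnion.mpr ⟨_, Nat.mem_divisors.mpr ⟨natDegree_minpoly_dvd x, hn⟩,
      mem_irrOfDeg.mpr ⟨⟨minpoly.monic hx, rfl⟩, minpoly.irreducible hx⟩⟩
  rw [gaussSum, ← Finset.sum_fiberwise_of_maps_to (g := minpoly F) (t := n.divisors.biUnion (irrOfDeg F))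
    fun x _ => hmem x, Finset.sum_biUnion, powerSum]
  · refine Finset.sum_congr rfl fun d hd => Finset.sum_congr rfl fun π hπ => ?_
    obtain ⟨⟨hm, rfl⟩, hirr⟩ := mem_irrOfDeg.mp hπ
    rw [Finset.sum_congr rfl fun x hx => show normChar E χ x * traceAddChar E ψ x =
        polySymbol χ ψ π ^ (n / π.natDegree) by rw [normChar_mul_traceAddChar, (Finset.mem_filter.mp hx).2],
      Finset.sum_const, card_fibre hirr hm (Nat.mem_divisors.mp hd).1, nsmul_eq_mul]
  · intro d _ d' _ hne
    exact Finset.disjoint_left.mpr fun π h h' =>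
      hne ((mem_irrOfDeg.mp h).1.2.symm.trans (mem_irrOfDeg.mp h').1.2)

/-- **The lifting relation of Davenport and Hasse**: `-g(χ ∘ N, ψ ∘ Tr) = (-g(χ, ψ)) ^ n`. -/
theorem neg_gaussSum_normChar [IsDomain R] (hχ : χ ≠ 1) :
    -gaussSum (normChar E χ) (traceAddChar E ψ) = (-gaussSum χ ψ) ^ Module.finrank F E := by
  rw [gaussSum_normChar_eq_powerSum, powerSum_eq χ ψ hχ (n := Module.finrank F E) Module.finrank_pos, neg_neg]

end FA.DavenportHasse
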