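import Fermat.Agent.DavenportHasse.Lifting
import Fermat.Agent.FermatCount.Basic
import Mathlib.NumberTheory.LegendreSymbol.Complex

/-!
# Jacobi sums in extensions and the points of the Fermat curves

`-J(χ ∘ N, φ ∘ N) = (-J(χ, φ)) ^ s` in the extension of degree `s`; as the norm is onto and `n` divides `q - 1`, the
characters killed by `n` upstairs are the lifted ones. So `x ^ n + y ^ n = z ^ n` has `q ^ s + 1 - ∑ (-J) ^ s` points.
-/

set_option autoImplicit false
set_option linter.unusedSectionVars false

noncomputable section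

open Finset
open scoped Classical

namespace FA.DavenportHasse

open FA.FermatCount

variable {F : Type*} [Field F] [Fintype F] (E : Type*) [Field E] [Fintype E] [Algebra F E]

theorem isUnit_norm (u : Eˣ) : IsUnit (Algebra.norm F (u : E)) := u.isUnit.map _

/-- The lift of characters is a homomorphism. -/
def normCharHom {R : Type*} [CommRing R] : MulChar F R →* MulChar E R where
  toFun := normChar E
  map_one' := MulChar.ext fun u => by rw [normChar_apply, MulChar.one_apply (isUnit_norm E u), MulChar.one_apply_coe]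
  map_mul' χ φ := MulChar.ext fun u => by simp only [normChar_apply, MulChar.mul_apply]

theorem normChar_injective {R : Type*} [CommRing R] : Function.Injective (normChar (R := R) (F := F) E) :=
  fun χ φ h => MulChar.ext fun u => by
    obtain ⟨x, hx⟩ := FiniteField.norm_surjective F E (u : F)
    rw [← hx, ← normChar_apply, ← normChar_apply, h]

theorem normChar_ne_one {R : Type*} [CommRing R] {χ : MulChar F R} (hχ : χ ≠ 1) : normChar E χ ≠ 1 := fun h =>
  hχ (normChar_injective E (h.trans (map_one (normCharHom (R := R) (F := F) E)).symm))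

theorem traceAddChar_isPrimitive {R : Type*} [CommRing R] {ψ : AddChar F R} (hψ : ψ.IsPrimitive) :
    (traceAddChar E ψ).IsPrimitive := by
  refine AddChar.IsPrimitive.of_ne_one fun h => hψ one_ne_zero (DFunLike.ext _ _ fun a => ?_)
  obtain ⟨x, hx⟩ := Algebra.trace_surjective F E a
  rw [AddChar.mulShift_apply, one_mul, ← hx, ← traceAddChar_apply, h, AddChar.one_apply, AddChar.one_apply]

/-- **The lifting relation for Jacobi sums**. -/
theorem neg_jacobiSum_normChar {χ φ : MulChar F ℂ} (hχ : χ ≠ 1) (hφ : φ ≠ 1) :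
    -jacobiSum (normChar E χ) (normChar E φ) = (-jacobiSum χ φ) ^ Module.finrank F E := by
  by_cases h : χ * φ = 1
  · obtain rfl : φ = χ⁻¹ := (inv_eq_of_mul_eq_one_right h).symm
    rw [show normChar E χ⁻¹ = (normChar E χ)⁻¹ from map_inv (normCharHom (R := ℂ) (F := F) E) χ,
      jacobiSum_nontrivial_inv (normChar_ne_one E hχ), jacobiSum_nontrivial_inv hχ, neg_neg, neg_neg,
      normChar_apply, ← map_pow, show (-1 : E) = algebraMap F E (-1) by rw [map_neg, map_one],
      Algebra.norm_algebraMap]
  · set ψ := AddChar.FiniteField.primitiveChar_to_Complex F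
    have hψ : ψ.IsPrimitive := AddChar.FiniteField.primitiveChar_to_Complex_isPrimitive F
    have hhom : normChar E (χ * φ) = normChar E χ * normChar E φ := map_mul (normCharHom (R := ℂ) (F := F) E) χ φ
    have h' : normChar E χ * normChar E φ ≠ 1 := hhom ▸ normChar_ne_one E h
    have h1 := jacobiSum_mul_nontrivial h' (traceAddChar E ψ)
    have h2 := jacobiSum_mul_nontrivial h ψ
    rw [← hhom] at h1
    have hne : gaussSum (χ * φ) ψ ≠ 0 :=
      gaussSum_ne_zero_of_nontrivial (Nat.cast_ne_zero.mpr Fintype.card_ne_zero) h hψ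
    refine mul_left_cancel₀ (pow_ne_zero (Module.finrank F E) (neg_ne_zero.mpr hne)) ?_
    rw [← mul_pow, neg_mul_neg, h2, ← neg_gaussSum_normChar (χ * φ) ψ h, neg_mul_neg, h1,
      ← neg_mul_neg (gaussSum χ ψ), mul_pow, ← neg_gaussSum_normChar χ ψ hχ, ← neg_gaussSum_normChar φ ψ hφ,
      neg_mul_neg]

theorem card_pow_finrank : Fintype.card E = Fintype.card F ^ Module.finrank F E := Module.card_eq_pow_finrank

/-- The characters killed by `n` upstairs are lifted. -/
theorem killed_eq_image {n : ℕ} (hn : n ∣ Fintype.card F - 1) :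
    killed E n = (killed F n).image (normChar E) := by
  refine (Finset.eq_of_subset_of_card_le (fun φ hφ => ?_) ?_).symm
  · obtain ⟨χ, hχ, rfl⟩ := Finset.mem_image.mp hφ
    rw [mem_killed, show normChar E χ ^ n = normChar E (χ ^ n) from
      (map_pow (normCharHom (R := ℂ) (F := F) E) χ n).symm, mem_killed.mp hχ]
    exact map_one (normCharHom (R := ℂ) (F := F) E)
  · have h : n ∣ Fintype.card E - 1 := by
      rw [card_pow_finrank (F := F) E]
      exact hn.trans (by simpa using Nat.sub_dvd_pow_sub_pow (Fintype.card F) 1 (Module.finrank F E))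
    rw [Finset.card_image_of_injective _ (normChar_injective E), card_killed, card_killed, Nat.gcd_eq_left hn,
      Nat.gcd_eq_left h]

/-- The points of `x ^ n + y ^ n = z ^ n`. -/
def fermatPoints (E : Type*) [Field E] (n : ℕ) : ℕ :=
  Nat.card {p : E × E // p.1 ^ n + p.2 ^ n = 1} + Nat.card {t : E // t ^ n = -1}

theorem fermatPoints_eq (n : ℕ) : fermatPoints E n = (affinePoints E n).card + (roots E n (-1)).card := by
  rw [fermatPoints, Nat.card_eq_fintype_card, Nat.card_eq_fintype_card, Fintype.card_subtype, Fintype.card_subtype]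
  rfl

/-- The pairs of nontrivial characters killed by `n` with nontrivial product. -/
def fermatPairs (F : Type*) [Field F] [Fintype F] (n : ℕ) : Finset ((_ : MulChar F ℂ) × MulChar F ℂ) :=
  ((killed F n).erase 1).sigma fun χ => ((killed F n).erase 1).erase χ⁻¹

theorem mem_fermatPairs {n : ℕ} {x : (_ : MulChar F ℂ) × MulChar F ℂ} :
    x ∈ fermatPairs F n ↔ (x.1 ^ n = 1 ∧ x.2 ^ n = 1) ∧ x.1 ≠ 1 ∧ x.2 ≠ 1 ∧ x.1 * x.2 ≠ 1 := by
  simp only [fermatPairs, Finset.mem_sigma, Finset.mem_erase, mem_killed, ne_eq, mul_eq_one_iff_eq_inv']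
  tauto

theorem card_fermatPairs {n : ℕ} (hn : n ∣ Fintype.card F - 1) :
    (fermatPairs F n).card = (n - 1) * (n - 2) := by
  have hS : ((killed F n).erase 1).card = n - 1 := by
    rw [Finset.card_erase_of_mem one_mem_killed, card_killed, Nat.gcd_eq_left hn]
  rw [fermatPairs, Finset.card_sigma, Finset.sum_congr rfl fun χ hχ => show _ = n - 2 by
    rw [Finset.card_erase_of_mem, hS, Nat.sub_sub]
    rw [Finset.mem_erase, mem_killed] at hχ ⊢
    exact ⟨inv_ne_one.mpr hχ.1, by rw [inv_pow, hχ.2, inv_one]⟩, Finset.sum_const, hS, smul_eq_mul]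

/-- **The points over every extension.** -/
theorem fermatPoints_extension {n : ℕ} (hn0 : 0 < n) (hn : n ∣ Fintype.card F - 1) :
    (fermatPoints E n : ℂ) = (Fintype.card F : ℂ) ^ Module.finrank F E + 1 -
      ∑ x ∈ fermatPairs F n, (-jacobiSum x.1 x.2) ^ Module.finrank F E := by
  have key : ((affinePoints E n).card : ℂ) + (roots E n (-1)).card = (Fintype.card E : ℂ) + 1 +
      ∑ χ ∈ (killed E n).erase 1, ∑ φ ∈ ((killed E n).erase 1).erase χ⁻¹, jacobiSum χ φ := by
    convert card_points (F := E) hn0
  have h1 : (killed E n).erase 1 = ((killed F n).erase 1).image (normChar E) := by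
    rw [killed_eq_image E hn, Finset.image_erase (normChar_injective E),
      show normChar E (1 : MulChar F ℂ) = 1 from map_one (normCharHom (R := ℂ) (F := F) E)]
  rw [fermatPoints_eq, Nat.cast_add, key, card_pow_finrank (F := F) E, Nat.cast_pow, sub_eq_add_neg, h1,
    Finset.sum_image (normChar_injective E).injOn, fermatPairs, Finset.sum_sigma, ← Finset.sum_neg_distrib]
  refine congrArg (_ + ·) (Finset.sum_congr rfl fun χ hχ => ?_)
  rw [show (normChar E χ)⁻¹ = normChar E χ⁻¹ from (map_inv (normCharHom (R := ℂ) (F := F) E) χ).symm,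
    ← Finset.image_erase (normChar_injective E), Finset.sum_image (normChar_injective E).injOn,
    ← Finset.sum_neg_distrib]
  refine Finset.sum_congr rfl fun φ hφ => ?_
  show jacobiSum (normChar E χ) (normChar E φ) = -(-jacobiSum χ φ) ^ Module.finrank F E
  rw [← neg_jacobiSum_normChar E (Finset.ne_of_mem_erase hχ) (Finset.ne_of_mem_erase (Finset.mem_of_mem_erase hφ)),
    neg_neg]

end FA.DavenportHasse
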