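import Mathlib.Algebra.Polynomial.FieldDivision
import Mathlib.Algebra.Polynomial.Div
import Mathlib.NumberTheory.GaussSum
import Mathlib.NumberTheory.Divisors
import Mathlib.RingTheory.Polynomial.Basic
import Mathlib.RingTheory.UniqueFactorizationDomain.NormalizedFactors
import Mathlib.RingTheory.PrincipalIdealDomain

/-!
# The recursion of Davenport and Hasse

For characters `χ`, `ψ` of a finite field the symbol `λ(f) = χ((-1) ^ d f(0)) ψ(-a₁)` of a monic
`f = X ^ d + a₁ X ^ (d - 1) + ...` is multiplicative. Its sum over the monic polynomials of degree `n` is `1`, `g`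
and `0` for `n = 0`, `1` and `n ≥ 2`; counting degrees factor by factor makes the weighted sum over the powers of
irreducibles of total degree `n` equal to `-(-g) ^ n`.
-/

set_option autoImplicit false
set_option linter.unusedSectionVars false

noncomputable section

open Finset Polynomial UniqueFactorizationMonoid
open scoped Classical

namespace FA.DavenportHasse

variable (F : Type*) [Field F] [Fintype F]

theorem finite_monic (n : ℕ) : {p : F[X] | p.Monic ∧ p.natDegree = n}.Finite := by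
  have : Finite {p : F[X] // p.Monic ∧ p.natDegree = n} :=
    Finite.of_equiv _ ((monicEquivDegreeLT n).trans (degreeLTEquiv F n).toEquiv).symm
  exact Set.finite_coe_iff.mp this

/-- The monic polynomials of degree `n`. -/
def monicOfDeg (n : ℕ) : Finset F[X] := (finite_monic F n).toFinset

/-- The monic irreducible polynomials of degree `n`. -/
def irrOfDeg (n : ℕ) : Finset F[X] := (monicOfDeg F n).filter Irreducible

variable {F} {R : Type*} [CommRing R]

theorem mem_monicOfDeg {n : ℕ} {p : F[X]} : p ∈ monicOfDeg F n ↔ p.Monic ∧ p.natDegree = n := by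
  rw [monicOfDeg, Set.Finite.mem_toFinset, Set.mem_ofPred_eq]

theorem mem_irrOfDeg {n : ℕ} {p : F[X]} : p ∈ irrOfDeg F n ↔ (p.Monic ∧ p.natDegree = n) ∧ Irreducible p := by
  rw [irrOfDeg, Finset.mem_filter, mem_monicOfDeg]

variable (χ : MulChar F R) (ψ : AddChar F R)

/-- The symbol of a monic polynomial. -/
def polySymbol (f : F[X]) : R := χ ((-1) ^ f.natDegree * f.coeff 0) * ψ (-f.nextCoeff)

theorem polySymbol_one : polySymbol χ ψ 1 = 1 := by
  simp [polySymbol, nextCoeff]

theorem polySymbol_mul {f g : F[X]} (hf : f.Monic) (hg : g.Monic) :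
    polySymbol χ ψ (f * g) = polySymbol χ ψ f * polySymbol χ ψ g := by
  rw [polySymbol, polySymbol, polySymbol, hf.natDegree_mul hg, mul_coeff_zero, hf.nextCoeff_mul hg, neg_add,
    AddChar.map_add_eq_mul, pow_add, mul_mul_mul_comm ((-1 : F) ^ f.natDegree), map_mul]
  ring

theorem polySymbol_pow {f : F[X]} (hf : f.Monic) (k : ℕ) : polySymbol χ ψ (f ^ k) = polySymbol χ ψ f ^ k := by
  induction k with
  | zero => rw [pow_zero, pow_zero, polySymbol_one]
  | succ k ih => rw [pow_succ, pow_succ, polySymbol_mul χ ψ (hf.pow k) hf, ih]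

/-- The sum over the monic polynomials of degree `n`. -/
def monicSum (n : ℕ) : R := ∑ f ∈ monicOfDeg F n, polySymbol χ ψ f

/-- The weighted sum over the powers of irreducibles of total degree `n`. -/
def powerSum (n : ℕ) : R := ∑ d ∈ n.divisors, ∑ π ∈ irrOfDeg F d, (d : R) * polySymbol χ ψ π ^ (n / d)

theorem monicSum_zero : monicSum χ ψ 0 = 1 := by
  rw [monicSum, show monicOfDeg F 0 = {1} from Finset.ext fun p => by
    rw [mem_monicOfDeg, Finset.mem_singleton]
    exact ⟨fun ⟨h, h'⟩ => h.natDegree_eq_zero.mp h', fun h => h ▸ ⟨monic_one, natDegree_one⟩⟩,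
    Finset.sum_singleton, polySymbol_one]

theorem monicSum_one : monicSum χ ψ 1 = gaussSum χ ψ := by
  refine Finset.sum_nbij' (fun f => -f.coeff 0) (fun c => X - C c) (fun _ _ => Finset.mem_univ _)
    (fun c _ => mem_monicOfDeg.mpr ⟨monic_X_sub_C c, natDegree_X_sub_C c⟩) (fun f hf => ?_) (fun c _ => by simp)
    fun f hf => ?_
  · obtain ⟨hm, hd⟩ := mem_monicOfDeg.mp hf
    rw [map_neg, sub_neg_eq_add]
    exact (hm.eq_X_add_C hd).symm
  · obtain ⟨hm, hd⟩ := mem_monicOfDeg.mp hf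
    rw [polySymbol, hd, pow_one, neg_one_mul, nextCoeff_of_natDegree_pos (by omega), hd]

theorem monicSum_eq_zero [IsDomain R] (hχ : χ ≠ 1) {n : ℕ} (hn : 2 ≤ n) : monicSum χ ψ n = 0 := by
  rw [monicSum, ← Finset.sum_fiberwise_of_maps_to (g := fun f => f - C (f.coeff 0))
    (t := (monicOfDeg F n).image fun f => f - C (f.coeff 0)) fun f hf => Finset.mem_image_of_mem _ hf]
  refine Finset.sum_eq_zero fun h hh => ?_
  obtain ⟨f₀, hf₀, rfl⟩ := Finset.mem_image.mp hh
  obtain ⟨hm, hd⟩ := mem_monicOfDeg.mp hf₀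
  set h₀ := f₀ - C (f₀.coeff 0) with hh₀
  have hcoeff : ∀ (c : F) (i : ℕ), i ≠ 0 → (h₀ + C c).coeff i = f₀.coeff i := fun c i hi => by
    rw [hh₀, coeff_add, coeff_sub, coeff_C_of_ne_zero hi, coeff_C_of_ne_zero hi, sub_zero, add_zero]
  have hdeg : ∀ c : F, (h₀ + C c).natDegree = n := fun c => by
    rw [natDegree_add_C, hh₀, natDegree_sub_C, hd]
  have hmem : ∀ c : F, h₀ + C c ∈ monicOfDeg F n := fun c => mem_monicOfDeg.mpr ⟨by
    rw [Monic, leadingCoeff, hdeg, hcoeff c n (by omega), ← hd]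
    exact hm, hdeg c⟩
  calc ∑ f ∈ (monicOfDeg F n).filter (fun f => f - C (f.coeff 0) = h₀), polySymbol χ ψ f
      = ∑ c : F, χ ((-1) ^ n * c) * ψ (-f₀.coeff (n - 1)) := by
        refine Finset.sum_nbij' (fun f => f.coeff 0) (fun c => h₀ + C c) (fun _ _ => Finset.mem_univ _)
          (fun c _ => Finset.mem_filter.mpr ⟨hmem c, by simp [hh₀]⟩) (fun f hf => ?_) (fun c _ => by simp [hh₀])
          fun f hf => ?_
        · rw [← (Finset.mem_filter.mp hf).2, sub_add_cancel]
        · obtain ⟨hf1, hf2⟩ := Finset.mem_filter.mp hf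
          have hfd := (mem_monicOfDeg.mp hf1).2
          rw [polySymbol, hfd, nextCoeff_of_natDegree_pos (by omega), hfd, ← hcoeff (f.coeff 0) (n - 1) (by omega),
            ← hf2, sub_add_cancel]
    _ = 0 := by simp only [map_mul, ← Finset.sum_mul, ← Finset.mul_sum, MulChar.sum_eq_zero_of_ne_one hχ, mul_zero,
          zero_mul]

theorem pow_dvd_iff_le_count {π f : F[X]} (hπ : Irreducible π) (hm : π.Monic) (hf : f ≠ 0) (k : ℕ) :
    π ^ k ∣ f ↔ k ≤ (normalizedFactors f).count π := by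
  rw [dvd_iff_normalizedFactors_le_normalizedFactors (pow_ne_zero k hπ.ne_zero) hf, normalizedFactors_pow,
    normalizedFactors_irreducible hπ, hm.normalize_eq_self, Multiset.nsmul_singleton,
    Multiset.le_count_iff_replicate_le]

theorem natDegree_eq_sum_count {f : F[X]} (hf : f.Monic) :
    f.natDegree = ∑ π ∈ (normalizedFactors f).toFinset, (normalizedFactors f).count π * π.natDegree := by
  have hmon : ∀ p ∈ normalizedFactors f, p.Monic := fun p hp => by
    rw [← normalize_normalized_factor p hp]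
    exact monic_normalize (prime_of_normalized_factor p hp).ne_zero
  conv_lhs => rw [← hf.normalize_eq_self, ← prod_normalizedFactors_eq hf.ne_zero]
  rw [natDegree_multiset_prod_of_monic _ hmon, Finset.sum_multiset_map_count]
  simp only [smul_eq_mul]

/-- **Counting degrees factor by factor.** -/
theorem natCast_mul_monicSum (n : ℕ) :
    (n : R) * monicSum χ ψ n = ∑ m ∈ Finset.Icc 1 n, powerSum χ ψ m * monicSum χ ψ (n - m) := by
  have hL : (n : R) * monicSum χ ψ n = ∑ x ∈ (monicOfDeg F n).sigma (fun f =>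
      (normalizedFactors f).toFinset.sigma fun π => Finset.Icc 1 ((normalizedFactors f).count π)),
      (x.2.1.natDegree : R) * polySymbol χ ψ x.1 := by
    rw [monicSum, Finset.mul_sum, Finset.sum_sigma]
    refine Finset.sum_congr rfl fun f hf => ?_
    obtain ⟨hm, hd⟩ := mem_monicOfDeg.mp hf
    rw [Finset.sum_sigma, ← hd, natDegree_eq_sum_count hm, Nat.cast_sum, Finset.sum_mul]
    refine Finset.sum_congr rfl fun π _ => ?_
    dsimp only
    rw [Finset.sum_const, Nat.card_Icc, Nat.add_sub_cancel, nsmul_eq_mul, Nat.cast_mul, mul_assoc]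
  have hR : ∑ m ∈ Finset.Icc 1 n, powerSum χ ψ m * monicSum χ ψ (n - m) =
      ∑ y ∈ (Finset.Icc 1 n).sigma (fun m => m.divisors.sigma fun d => irrOfDeg F d ×ˢ monicOfDeg F (n - m)),
        (y.2.1 : R) * polySymbol χ ψ y.2.2.1 ^ (y.1 / y.2.1) * polySymbol χ ψ y.2.2.2 := by
    rw [Finset.sum_sigma]
    refine Finset.sum_congr rfl fun m _ => ?_
    rw [Finset.sum_sigma, powerSum, monicSum, Finset.sum_mul]
    refine Finset.sum_congr rfl fun d _ => ?_
    rw [Finset.sum_product, Finset.sum_mul]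
    exact Finset.sum_congr rfl fun π _ => Finset.mul_sum _ _ _
  rw [hL, hR]
  have hdata : ∀ (f π : F[X]) (k : ℕ), f ∈ monicOfDeg F n → π ∈ normalizedFactors f → 1 ≤ k →
      k ≤ (normalizedFactors f).count π → Irreducible π ∧ π.Monic ∧ 0 < π.natDegree ∧
        π ^ k * (f /ₘ π ^ k) = f ∧ (f /ₘ π ^ k).Monic ∧ k * π.natDegree + (f /ₘ π ^ k).natDegree = n := by
    intro f π k hf hπ hk hk'
    obtain ⟨hm, hd⟩ := mem_monicOfDeg.mp hf
    have hirr := irreducible_of_normalized_factor π hπ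
    have hπm : π.Monic := normalize_normalized_factor π hπ ▸ monic_normalize hirr.ne_zero
    obtain ⟨h, hh⟩ := (pow_dvd_iff_le_count hirr hπm hm.ne_zero k).mpr hk'
    have e : f /ₘ π ^ k = h := by rw [hh, mul_divByMonic_cancel_left h (hπm.pow k)]
    have hhm : h.Monic := (hπm.pow k).of_mul_monic_left (hh ▸ hm)
    refine ⟨hirr, hπm, hirr.natDegree_pos, by rw [e, hh], e ▸ hhm, ?_⟩
    rw [e, ← hd, hh, (hπm.pow k).natDegree_mul hhm, hπm.natDegree_pow]
  refine Finset.sum_nbij'
    (fun x => ⟨x.2.2 * x.2.1.natDegree, ⟨x.2.1.natDegree, (x.2.1, x.1 /ₘ x.2.1 ^ x.2.2)⟩⟩)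
    (fun y => ⟨y.2.2.1 ^ (y.1 / y.2.1) * y.2.2.2, ⟨y.2.2.1, y.1 / y.2.1⟩⟩) ?_ ?_ ?_ ?_ ?_
  · rintro ⟨f, π, k⟩ hx
    simp only [Finset.mem_sigma, Multiset.mem_toFinset, Finset.mem_Icc] at hx
    obtain ⟨h1, h2, h3, -, h5, h6⟩ := hdata f π k hx.1 hx.2.1 hx.2.2.1 hx.2.2.2
    have : 0 < k * π.natDegree := Nat.mul_pos hx.2.2.1 h3
    simp only [Finset.mem_sigma, Finset.mem_Icc, Finset.mem_product, Nat.mem_divisors, mem_irrOfDeg, mem_monicOfDeg]
    exact ⟨⟨this, by omega⟩, ⟨dvd_mul_left _ k, this.ne'⟩, ⟨⟨h2, trivial⟩, h1⟩, h5, by omega⟩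
  · rintro ⟨m, d, π, h⟩ hy
    simp only [Finset.mem_sigma, Finset.mem_Icc, Finset.mem_product, Nat.mem_divisors, mem_irrOfDeg,
      mem_monicOfDeg] at hy
    obtain ⟨⟨hm1, hmn⟩, ⟨hdm, -⟩, ⟨⟨hπm, hπd⟩, hirr⟩, hhm, hhd⟩ := hy
    have hfm := (hπm.pow (m / d)).mul hhm
    have hk : 1 ≤ m / d := Nat.div_pos (Nat.le_of_dvd hm1 hdm) (hπd ▸ hirr.natDegree_pos)
    have hk' := (pow_dvd_iff_le_count hirr hπm hfm.ne_zero (m / d)).mp (dvd_mul_right _ h)
    simp only [Finset.mem_sigma, Multiset.mem_toFinset, Finset.mem_Icc, mem_monicOfDeg]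
    refine ⟨⟨hfm, ?_⟩, Multiset.count_pos.mp (by omega), hk, hk'⟩
    rw [(hπm.pow _).natDegree_mul hhm, hπm.natDegree_pow, hπd, hhd, Nat.div_mul_cancel hdm]
    omega
  · rintro ⟨f, π, k⟩ hx
    simp only [Finset.mem_sigma, Multiset.mem_toFinset, Finset.mem_Icc] at hx
    obtain ⟨-, -, h3, h4, -, -⟩ := hdata f π k hx.1 hx.2.1 hx.2.2.1 hx.2.2.2
    simp only [Nat.mul_div_cancel k h3, h4]
  · rintro ⟨m, d, π, h⟩ hy
    simp only [Finset.mem_sigma, Finset.mem_Icc, Finset.mem_product, Nat.mem_divisors, mem_irrOfDeg,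
      mem_monicOfDeg] at hy
    obtain ⟨-, ⟨hdm, -⟩, ⟨⟨hπm, hπd⟩, -⟩, -⟩ := hy
    simp only [hπd, Nat.div_mul_cancel hdm, mul_divByMonic_cancel_left h (hπm.pow (m / d))]
  · rintro ⟨f, π, k⟩ hx
    simp only [Finset.mem_sigma, Multiset.mem_toFinset, Finset.mem_Icc] at hx
    obtain ⟨-, h2, h3, h4, h5, -⟩ := hdata f π k hx.1 hx.2.1 hx.2.2.1 hx.2.2.2
    simp only [Nat.mul_div_cancel k h3]
    rw [mul_assoc, ← polySymbol_pow χ ψ h2, ← polySymbol_mul χ ψ (h2.pow k) h5, h4]

/-- **The recursion**: the weighted sum is `-(-g) ^ n`. -/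
theorem powerSum_eq [IsDomain R] (hχ : χ ≠ 1) {n : ℕ} (hn : 1 ≤ n) :
    powerSum χ ψ n = -(-gaussSum χ ψ) ^ n := by
  induction n, hn using Nat.le_induction with
  | base =>
    have h := natCast_mul_monicSum χ ψ 1
    rw [Nat.cast_one, one_mul, monicSum_one, Finset.Icc_self, Finset.sum_singleton, Nat.sub_self, monicSum_zero,
      mul_one] at h
    rw [← h, pow_one, neg_neg]
  | succ m hm ih =>
    have h := natCast_mul_monicSum χ ψ (m + 1)
    rw [monicSum_eq_zero χ ψ hχ (by omega), mul_zero, Finset.sum_eq_add (a := m) (b := m + 1) (by omega)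
      (fun c hc hne => by
        rw [Finset.mem_Icc] at hc
        rw [monicSum_eq_zero χ ψ hχ (by omega), mul_zero])
      (fun hc => absurd (Finset.mem_Icc.mpr ⟨hm, by omega⟩) hc)
      (fun hc => absurd (Finset.mem_Icc.mpr ⟨by omega, le_rfl⟩) hc),
      Nat.add_sub_cancel_left, monicSum_one, Nat.sub_self, monicSum_zero, mul_one, ih] at h
    rw [pow_succ]
    linear_combination -h

end FA.DavenportHasse
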