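import Fermat.Agent.DavenportHasse.Fermat
import Fermat.Agent.PowerReciprocity.FermatPoints

/-!
# The Fermat curve over the extensions of a residue field

At a prime `P ∤ l` of `ℚ(ζ_l)` the points over the extension of degree `s` of the residue field number
`N P ^ s + 1 - ∑ J_{a,b}(P) ^ s`: the Euler factor at `P` is the product of those of the Größencharaktere `J_{a,b}`.
-/

set_option autoImplicit false
set_option linter.unusedSectionVars false

noncomputable section

open NumberField
open scoped Classical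

namespace FA.DavenportHasse

open FA.PowerReciprocity FA.FermatCount

variable {K : Type*} [Field K] [NumberField K] {l : ℕ} [hl : Fact l.Prime] [IsCyclotomicExtension {l} ℚ K]

/-- **The points over every extension of a residue field.** -/
theorem fermatPoints_residue (hl2 : l ≠ 2) {P : Ideal (𝓞 K)} [P.IsMaximal] (hlP : (l : 𝓞 K) ∉ P) (E : Type*)
    [Field E] [Finite E] [Algebra (𝓞 K ⧸ P) E] :
    (fermatPoints E l : 𝓞 K) = (Ideal.absNorm P : 𝓞 K) ^ Module.finrank (𝓞 K ⧸ P) E + 1 -
      ∑ a ∈ Finset.Icc 1 (l - 1), ∑ b ∈ (Finset.Icc 1 (l - 1)).erase (l - a),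
        jacobiPrime l a b P ^ Module.finrank (𝓞 K ⧸ P) E := by
  let := Fintype.ofFinite (𝓞 K ⧸ P)
  let := Fintype.ofFinite E
  let := Ideal.Quotient.field P
  obtain ⟨χ, hχ⟩ := exists_symbolChar hl2 hlP
  obtain ⟨φ⟩ : Nonempty (K →+* ℂ) := inferInstance
  set g := φ.comp (algebraMap (𝓞 K) K)
  have hinj : Function.Injective g := φ.injective.comp RingOfIntegers.coe_injective
  have hχl := char_pow_card hlP hχ
  have hdvd : l ∣ Fintype.card (𝓞 K ⧸ P) - 1 := by
    rw [card_quotient]
    exact dvd_absNorm_sub_one hlP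
  set T := (Finset.Icc 1 (l - 1)).sigma fun a => (Finset.Icc 1 (l - 1)).erase (l - a) with hT
  set f : (_ : ℕ) × ℕ → (_ : MulChar (𝓞 K ⧸ P) ℂ) × MulChar (𝓞 K ⧸ P) ℂ :=
    fun x => ⟨(χ ^ x.1).ringHomComp g, (χ ^ x.2).ringHomComp g⟩ with hf
  have hnd : ∀ a ∈ Finset.Icc 1 (l - 1), ¬ l ∣ a := fun a ha e => by
    rw [Finset.mem_Icc] at ha
    have := Nat.le_of_dvd (by omega) e
    omega
  have hord : orderOf χ = l := orderOf_eq_prime hχl (by
    simpa using char_pow_ne_one hlP hχ (k := 1) fun e => hl.out.ne_one (Nat.dvd_one.mp e))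
  have hsub : ∀ a ∈ Finset.Icc 1 (l - 1), ∀ b ∈ (Finset.Icc 1 (l - 1)).erase (l - a), ¬ l ∣ a + b := by
    intro a ha b hb ⟨c, hc⟩
    rw [Finset.mem_erase, Finset.mem_Icc] at hb
    rw [Finset.mem_Icc] at ha
    rcases c with _ | _ | c
    · omega
    · omega
    · have := hl.out.two_le
      have h1 : a < l := by omega
      have h2 : b < l := by omega
      nlinarith
  have himg : T.image f = fermatPairs (𝓞 K ⧸ P) l := by
    refine Finset.eq_of_subset_of_card_le (fun y hy => ?_) ?_
    · obtain ⟨⟨a, b⟩, hab, rfl⟩ := Finset.mem_image.mp hy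
      obtain ⟨ha, hb⟩ := Finset.mem_sigma.mp hab
      refine mem_fermatPairs.mpr ⟨⟨?_, ?_⟩, (MulChar.ringHomComp_ne_one_iff hinj).mpr
        (char_pow_ne_one hlP hχ (hnd a ha)), (MulChar.ringHomComp_ne_one_iff hinj).mpr
        (char_pow_ne_one hlP hχ (hnd b (Finset.mem_of_mem_erase hb))), ?_⟩
      · show ((χ ^ a).ringHomComp g) ^ l = 1
        rw [MulChar.ringHomComp_pow, ← pow_mul, mul_comm, pow_mul, hχl, one_pow, MulChar.ringHomComp_one]
      · show ((χ ^ b).ringHomComp g) ^ l = 1
        rw [MulChar.ringHomComp_pow, ← pow_mul, mul_comm, pow_mul, hχl, one_pow, MulChar.ringHomComp_one]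
      · show (χ ^ a).ringHomComp g * (χ ^ b).ringHomComp g ≠ 1
        rw [← MulChar.ringHomComp_mul, ← pow_add, MulChar.ringHomComp_ne_one_iff hinj]
        exact char_pow_ne_one hlP hχ (hsub a ha b hb)
    · rw [card_fermatPairs hdvd, Finset.card_image_of_injOn, hT, Finset.card_sigma,
        Finset.sum_congr rfl fun a ha => show _ = l - 2 by
          rw [Finset.card_erase_of_mem, Nat.card_Icc]
          · omega
          · rw [Finset.mem_Icc] at ha ⊢
            omega, Finset.sum_const, Nat.card_Icc, smul_eq_mul, Nat.add_sub_cancel]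
      intro x hx y hy e
      rw [Finset.mem_coe, hT, Finset.mem_sigma, Finset.mem_erase, Finset.mem_Icc, Finset.mem_Icc] at hx hy
      have key : ∀ c d : ℕ, c < l → d < l → (χ ^ c).ringHomComp g = (χ ^ d).ringHomComp g → c = d :=
        fun c d hc hd e => pow_injOn_Iio_orderOf (x := χ) (show c < orderOf χ by omega) (show d < orderOf χ by omega)
          (MulChar.injective_ringHomComp hinj e)
      obtain ⟨a, b⟩ := x
      obtain ⟨a', b'⟩ := y
      dsimp only at hx hy
      simp only [hf, Sigma.mk.injEq, heq_eq_eq] at e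
      obtain rfl := key a a' (by omega) (by omega) e.1
      obtain rfl := key b b' (by omega) (by omega) e.2
      rfl
  have hinjT : Set.InjOn f T := by
    refine Finset.card_image_iff.mp ?_
    rw [himg, card_fermatPairs hdvd, hT, Finset.card_sigma, Finset.sum_congr rfl fun a ha => show _ = l - 2 by
      rw [Finset.card_erase_of_mem, Nat.card_Icc]
      · omega
      · rw [Finset.mem_Icc] at ha ⊢
        omega, Finset.sum_const, Nat.card_Icc, smul_eq_mul, Nat.add_sub_cancel]
  refine hinj ?_
  rw [map_natCast, fermatPoints_extension (F := 𝓞 K ⧸ P) E hl.out.pos hdvd, map_sub, map_add, map_pow, map_one,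
    map_natCast, map_sum, card_quotient, ← himg, Finset.sum_image hinjT, hT, Finset.sum_sigma]
  refine congrArg₂ (fun x y : ℂ => x - y) rfl (Finset.sum_congr rfl fun a ha => ?_)
  rw [map_sum]
  refine Finset.sum_congr rfl fun b hb => ?_
  have ha0 : a ≠ 0 := fun e => hnd a ha (e ▸ dvd_zero l)
  have hb0 : b ≠ 0 := fun e => hnd b (Finset.mem_of_mem_erase hb) (e ▸ dvd_zero l)
  rw [map_pow, jacobiPrime_eq hχ ha0 hb0, map_neg, ← jacobiSum_ringHomComp]

end FA.DavenportHasse
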