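import Mathlib.Analysis.Complex.Basic
import Mathlib.RingTheory.PowerSeries.Exp
import Mathlib.RingTheory.PowerSeries.Derivative
import Mathlib.RingTheory.PowerSeries.Inverse

/-!
# The exponential of a sum of geometric series

If the derivative of `L` is `∑ (a ^ (m + 1) + b ^ (m + 1) - ∑ αᵢ ^ (m + 1)) T ^ m` and `L` has no constant term, then
`exp L (1 - a T) (1 - b T) = ∏ (1 - αᵢ T)`: both sides have the same logarithmic derivative and constant term.
-/

set_option autoImplicit false

noncomputable section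

open PowerSeries

namespace FA.DavenportHasse

/-- `∑ c ^ (m + 1) T ^ m`. -/
def geomDeriv (c : ℂ) : ℂ⟦X⟧ := mk fun m => c ^ (m + 1)

theorem one_sub_mul_geomDeriv (c : ℂ) : (1 - C c * X) * geomDeriv c = C c := by
  ext n
  rcases n with _ | n
  · simp [geomDeriv]
  · simp [geomDeriv, sub_mul, mul_assoc, pow_succ' c (n + 1)]

theorem derivative_one_sub (c : ℂ) : d⁄dX ℂ (1 - C c * X) = (1 - C c * X) * -geomDeriv c := by
  rw [mul_neg, one_sub_mul_geomDeriv]
  simp [Derivation.leibniz, derivative_C, derivative_X]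

theorem derivative_prod_one_sub {ι : Type*} (s : Finset ι) (α : ι → ℂ) :
    d⁄dX ℂ (∏ i ∈ s, (1 - C (α i) * X)) = (∏ i ∈ s, (1 - C (α i) * X)) * -∑ i ∈ s, geomDeriv (α i) := by
  classical
  induction s using Finset.induction_on with
  | empty => simp
  | insert i s hi ih =>
    rw [Finset.prod_insert hi, Finset.sum_insert hi, Derivation.leibniz, ih, derivative_one_sub, smul_eq_mul,
      smul_eq_mul]
    ring

/-- **The exponential**. -/
theorem exp_subst_eq_prod {ι : Type*} (s : Finset ι) (α : ι → ℂ) (a b : ℂ) {L : ℂ⟦X⟧} (h0 : constantCoeff L = 0)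
    (hL : d⁄dX ℂ L = geomDeriv a + geomDeriv b - ∑ i ∈ s, geomDeriv (α i)) :
    (exp ℂ).subst L * ((1 - C a * X) * (1 - C b * X)) = ∏ i ∈ s, (1 - C (α i) * X) := by
  have hs : HasSubst L := HasSubst.of_constantCoeff_zero' h0
  set f := (exp ℂ).subst L with hf
  have hf' : d⁄dX ℂ f = f * d⁄dX ℂ L := by rw [hf, derivative_subst hs, derivative_exp]
  have hf0 : constantCoeff f = 1 := by
    have h1 : constantCoeff ((exp ℂ - 1).subst L) = 0 := constantCoeff_subst_eq_zero h0 _ (by simp)
    rw [subst_sub hs, map_sub] at h1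
    rw [show (1 : ℂ⟦X⟧).subst L = 1 by rw [← coe_substAlgHom hs, map_one], ← hf, map_one, sub_eq_zero] at h1
    exact h1
  set g := f * ((1 - C a * X) * (1 - C b * X)) with hg
  set P := ∏ i ∈ s, (1 - C (α i) * X) with hP
  have hP0 : constantCoeff P = 1 := by simp [hP, map_prod]
  have hP' : d⁄dX ℂ P = P * -∑ i ∈ s, geomDeriv (α i) := derivative_prod_one_sub s α
  have hg' : d⁄dX ℂ g = g * -∑ i ∈ s, geomDeriv (α i) := by
    rw [hg, Derivation.leibniz, Derivation.leibniz, derivative_one_sub, derivative_one_sub, hf', hL]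
    simp only [smul_eq_mul]
    ring
  have h : g * P⁻¹ = 1 := by
    refine derivative.ext ?_ (by simp [hg, hf0, hP0])
    rw [derivative_one, Derivation.leibniz, derivative_inv', hP', hg']
    simp only [smul_eq_mul]
    linear_combination (-g * P⁻¹ * -∑ i ∈ s, geomDeriv (α i)) * P.mul_inv_cancel (by simp [hP0])
  calc g = g * (P⁻¹ * P) := by rw [P.inv_mul_cancel (by simp [hP0]), mul_one]
    _ = P := by rw [← mul_assoc, h, one_mul]

end FA.DavenportHasse
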