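import Fermat.Agent.DavenportHasse.Fermat
import Fermat.Agent.DavenportHasse.Series
import Mathlib.FieldTheory.Finite.Extension

/-!
# The zeta function of a Fermat curve

With `P(T) = ∏ (1 + J T)` over the pairs of characters, `exp (∑ N_s T ^ s / s) = P(T) / ((1 - T) (1 - q T))`. The
pairs are permuted without fixed point by inversion, which sends `J` to `q / J`; so `∏ J = q ^ g` and the functional
equation holds.
-/

set_option autoImplicit false
set_option linter.unusedSectionVars false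

noncomputable section

open Finset
open scoped Classical

namespace FA.DavenportHasse

open FA.FermatCount

variable {F : Type*} [Field F] [Fintype F]

/-- The numerator `∏ (1 + J z)`. -/
def zetaNumerator (F : Type*) [Field F] [Fintype F] (n : ℕ) (z : ℂ) : ℂ :=
  ∏ x ∈ fermatPairs F n, (1 + jacobiSum x.1 x.2 * z)

/-- The pair of the inverse characters. -/
def invPair (x : (_ : MulChar F ℂ) × MulChar F ℂ) : (_ : MulChar F ℂ) × MulChar F ℂ := ⟨x.1⁻¹, x.2⁻¹⟩

theorem invPair_invPair (x : (_ : MulChar F ℂ) × MulChar F ℂ) : invPair (invPair x) = x := by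
  simp [invPair]

theorem invPair_mem {n : ℕ} {x : (_ : MulChar F ℂ) × MulChar F ℂ} (hx : x ∈ fermatPairs F n) :
    invPair x ∈ fermatPairs F n := by
  obtain ⟨⟨h1, h2⟩, h3, h4, h5⟩ := mem_fermatPairs.mp hx
  refine mem_fermatPairs.mpr ⟨⟨?_, ?_⟩, inv_ne_one.mpr h3, inv_ne_one.mpr h4, fun e => ?_⟩
  · show x.1⁻¹ ^ n = 1
    rw [inv_pow, h1, inv_one]
  · show x.2⁻¹ ^ n = 1
    rw [inv_pow, h2, inv_one]
  · change x.1⁻¹ * x.2⁻¹ = 1 at e
    rw [← mul_inv, inv_eq_one] at e
    exact h5 e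

theorem norm_pair {n : ℕ} {x : (_ : MulChar F ℂ) × MulChar F ℂ} (hx : x ∈ fermatPairs F n) :
    ‖jacobiSum x.1 x.2‖ = Real.sqrt (Fintype.card F) :=
  let ⟨_, h3, h4, h5⟩ := mem_fermatPairs.mp hx
  norm_jacobiSum h3 h4 h5

theorem pair_mul_invPair {n : ℕ} {x : (_ : MulChar F ℂ) × MulChar F ℂ} (hx : x ∈ fermatPairs F n) :
    jacobiSum x.1 x.2 * jacobiSum (invPair x).1 (invPair x).2 = (Fintype.card F : ℂ) := by
  obtain ⟨-, h3, h4, h5⟩ := mem_fermatPairs.mp hx
  refine jacobiSum_mul_jacobiSum_inv ?_ h3 h4 h5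
  rw [ringChar.eq_zero]
  exact (CharP.ringChar_ne_zero_of_finite F).symm

/-- A finite field has at most one quadratic character. -/
theorem quadratic_unique {χ φ : MulChar F ℂ} (hχ : χ ≠ 1) (hφ : φ ≠ 1) (h : χ ^ 2 = 1) (h' : φ ^ 2 = 1) : χ = φ := by
  by_contra hne
  have h1 : ({1, χ, φ} : Finset (MulChar F ℂ)).card ≤ (killed F 2).card :=
    Finset.card_le_card (by
      simp only [Finset.insert_subset_iff, Finset.singleton_subset_iff, mem_killed]
      exact ⟨one_pow 2, h, h'⟩)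
  rw [Finset.card_insert_of_notMem (by simp [hχ.symm, hφ.symm]), Finset.card_pair hne, card_killed] at h1
  have := Nat.le_of_dvd two_pos (Nat.gcd_dvd_left 2 (Fintype.card F - 1))
  omega

theorem invPair_ne {n : ℕ} {x : (_ : MulChar F ℂ) × MulChar F ℂ} (hx : x ∈ fermatPairs F n) : invPair x ≠ x := by
  obtain ⟨-, h3, h4, h5⟩ := mem_fermatPairs.mp hx
  intro e
  have e1 : x.1⁻¹ = x.1 := congrArg Sigma.fst e
  have e2 : x.2⁻¹ = x.2 := congrArg (fun y : (_ : MulChar F ℂ) × MulChar F ℂ => y.2) e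
  have hsq : ∀ χ : MulChar F ℂ, χ⁻¹ = χ → χ ^ 2 = 1 := fun χ h => by
    rw [pow_two]
    nth_rewrite 1 [← h]
    rw [inv_mul_cancel]
  refine h5 ?_
  rw [quadratic_unique h3 h4 (hsq _ e1) (hsq _ e2), ← pow_two, hsq _ e2]

/-- The product of all the Jacobi sums. -/
theorem prod_pairs (n : ℕ) :
    ∏ x ∈ fermatPairs F n, jacobiSum x.1 x.2 = (Real.sqrt (Fintype.card F) : ℂ) ^ (fermatPairs F n).card := by
  set r : ℂ := (Real.sqrt (Fintype.card F) : ℂ)
  have hr : r ≠ 0 := Complex.ofReal_ne_zero.mpr (Real.sqrt_ne_zero'.mpr (by exact_mod_cast Fintype.card_pos))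
  have hr2 : r * r = (Fintype.card F : ℂ) := by
    rw [← Complex.ofReal_mul, Real.mul_self_sqrt (Nat.cast_nonneg _), Complex.ofReal_natCast]
  have h : ∏ x ∈ fermatPairs F n, jacobiSum x.1 x.2 / r = 1 :=
    Finset.prod_involution (fun x _ => invPair x)
      (fun x hx => by rw [div_mul_div_comm, pair_mul_invPair hx, hr2, div_self]; exact_mod_cast Fintype.card_ne_zero)
      (fun x hx _ => invPair_ne hx) (fun x hx => invPair_mem hx) (fun x _ => invPair_invPair x)
  rwa [Finset.prod_div_distrib, Finset.prod_const, div_eq_one_iff_eq (pow_ne_zero _ hr)] at h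

/-- The genus, doubled. -/
theorem two_mul_genus {n : ℕ} : 2 * ((n - 1) * (n - 2) / 2) = (n - 1) * (n - 2) := by
  refine Nat.mul_div_cancel' ?_
  rcases Nat.even_or_odd (n - 2) with h | h
  · exact (even_iff_two_dvd.mp h).mul_left _
  · obtain ⟨k, hk⟩ := h
    exact Dvd.dvd.mul_right ⟨k + 1, by omega⟩ _

/-- The product of the Jacobi sums is `q ^ g`. -/
theorem prod_pairs_eq {n : ℕ} (hn : n ∣ Fintype.card F - 1) :
    ∏ x ∈ fermatPairs F n, jacobiSum x.1 x.2 = (Fintype.card F : ℂ) ^ ((n - 1) * (n - 2) / 2) := by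
  rw [prod_pairs, card_fermatPairs hn, ← two_mul_genus, pow_mul, ← Complex.ofReal_pow,
    Real.sq_sqrt (Nat.cast_nonneg _), Complex.ofReal_natCast, two_mul_genus]

/-- **The functional equation of the numerator**. -/
theorem zetaNumerator_functional {n : ℕ} (hn : n ∣ Fintype.card F - 1) {z : ℂ} (hz : z ≠ 0) :
    zetaNumerator F n (1 / (Fintype.card F * z)) *
        ((Fintype.card F : ℂ) ^ ((n - 1) * (n - 2) / 2) * z ^ ((n - 1) * (n - 2))) =
      zetaNumerator F n z := by
  have hq : (Fintype.card F : ℂ) ≠ 0 := Nat.cast_ne_zero.mpr Fintype.card_ne_zero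
  rw [← prod_pairs_eq hn, ← card_fermatPairs (F := F) hn, ← Finset.prod_const, ← Finset.prod_mul_distrib,
    zetaNumerator, Finset.prod_nbij' invPair invPair (fun x hx => invPair_mem hx) (fun x hx => invPair_mem hx)
      (fun x _ => invPair_invPair x) (fun x _ => invPair_invPair x) (g := fun x => 1 + (Fintype.card F : ℂ) /
        jacobiSum x.1 x.2 * (1 / (Fintype.card F * z))) (fun x hx => ?_), ← Finset.prod_mul_distrib, zetaNumerator]
  · refine Finset.prod_congr rfl fun x hx => ?_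
    have hJ : jacobiSum x.1 x.2 ≠ 0 := left_ne_zero_of_mul (ne_of_eq_of_ne (pair_mul_invPair hx) hq)
    field_simp
    ring
  · have hJ' : jacobiSum (invPair x).1 (invPair x).2 ≠ 0 := right_ne_zero_of_mul
      (ne_of_eq_of_ne (pair_mul_invPair hx) hq)
    rw [← pair_mul_invPair hx, mul_div_assoc, div_self hJ', mul_one]

/-- **The roots have absolute value `q ^ (-1/2)`**. -/
theorem norm_zero_zetaNumerator {n : ℕ} {z : ℂ} (h : zetaNumerator F n z = 0) :
    ‖z‖ = (Real.sqrt (Fintype.card F))⁻¹ := by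
  obtain ⟨x, hx, h⟩ := Finset.prod_eq_zero_iff.mp h
  refine eq_inv_of_mul_eq_one_right ?_
  rw [← norm_pair hx, ← norm_mul, eq_neg_of_add_eq_zero_right h, norm_neg, norm_one]

open PowerSeries in
/-- **The zeta function is rational**. -/
theorem exp_fermatPoints {n : ℕ} (hn0 : 0 < n) (hn : n ∣ Fintype.card F - 1) (p : ℕ) [Fact p.Prime] [CharP F p]
    {L : ℂ⟦X⟧} (h0 : constantCoeff L = 0)
    (hL : ∀ m, coeff (m + 1) L = (fermatPoints (FiniteField.Extension F p (m + 1)) n : ℂ) / (m + 1)) :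
    (exp ℂ).subst L * ((1 - X) * (1 - C (Fintype.card F : ℂ) * X)) =
      ∏ x ∈ fermatPairs F n, (1 + C (jacobiSum x.1 x.2) * X) := by
  have h := exp_subst_eq_prod (fermatPairs F n) (fun x => -jacobiSum x.1 x.2) 1 (Fintype.card F : ℂ) h0 ?_
  · simp only [map_neg, map_one, one_mul, neg_mul, sub_neg_eq_add] at h
    exact h
  ext m
  let := Fintype.ofFinite (FiniteField.Extension F p (m + 1))
  rw [coeff_derivative, hL, fermatPoints_extension (F := F) _ hn0 hn, FiniteField.finrank_extension]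
  simp only [geomDeriv, map_add, map_sub, map_sum, coeff_mk, one_pow]
  field_simp
  ring

end FA.DavenportHasse
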